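import Mathlib

/-!
# Program MW (S17), strand H: the formal algebra of the pairing `P` and of `theta`

Mathlib only.  Abstract data: a type `X` of points, an additive height `H : X → ℝ` and a
symmetric two-point function `D : X → X → ℝ`.  Effective multiplicity-free divisors are
finite sets of points.

* `HS H A = ∑ a ∈ A, H a`;
* `cross D A B = ∑ a ∈ A, ∑ b ∈ B, D a b`;
* `pairs D A = (∑ a ∈ A, ∑ b ∈ A.erase a, D a b) / 2` (the sum over unordered pairs);
* `P H D A B = #B * HS A + #A * HS B - cross A B` (block E);
* `theta H D g A = (#A + g - 1) * HS A - pairs A` (block F).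

Exact identities: `P_comm`, `P_union_left`, `P_union_right`, `theta_union`, `neg_P_eq_theta`;
`P_eq_sum_right` and `abs_P_le_of_pointwise` (the shape of (F0)); `pairs_eq_offDiag` (the sum
over ordered pairs, the shape of (F3)).
-/

set_option autoImplicit false
set_option linter.unusedSectionVars false

namespace Fermat.Agent.S17.H.Formal

open Finset

section Finsets

variable {X : Type*} [DecidableEq X]

/-- The additive height of a finite set of points. -/
noncomputable def HS (H : X → ℝ) (A : Finset X) : ℝ := ∑ a ∈ A, H a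

/-- The cross sum of a two-point function over two finite sets. -/
noncomputable def cross (D : X → X → ℝ) (A B : Finset X) : ℝ := ∑ a ∈ A, ∑ b ∈ B, D a b

/-- The sum of a (symmetric) two-point function over the unordered pairs of a finite set. -/
noncomputable def pairs (D : X → X → ℝ) (A : Finset X) : ℝ :=
  (∑ a ∈ A, ∑ b ∈ A.erase a, D a b) / 2

/-- The pairing of two finite sets of points. -/
noncomputable def P (H : X → ℝ) (D : X → X → ℝ) (A B : Finset X) : ℝ :=
  (B.card : ℝ) * HS H A + (A.card : ℝ) * HS H B - cross D A B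

/-- The theta functional of a finite set of points. -/
noncomputable def theta (H : X → ℝ) (D : X → X → ℝ) (g : ℝ) (A : Finset X) : ℝ :=
  ((A.card : ℝ) + g - 1) * HS H A - pairs D A

variable (H : X → ℝ) (D : X → X → ℝ)

@[simp] theorem HS_empty : HS H (∅ : Finset X) = 0 := by simp [HS]

@[simp] theorem HS_singleton (a : X) : HS H {a} = H a := by simp [HS]

theorem HS_union {A B : Finset X} (h : Disjoint A B) : HS H (A ∪ B) = HS H A + HS H B := by
  unfold HS
  exact Finset.sum_union h

@[simp] theorem cross_empty_left (B : Finset X) : cross D ∅ B = 0 := by simp [cross]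

@[simp] theorem cross_empty_right (A : Finset X) : cross D A ∅ = 0 := by simp [cross]

theorem cross_union_left {A A' : Finset X} (h : Disjoint A A') (B : Finset X) :
    cross D (A ∪ A') B = cross D A B + cross D A' B := by
  unfold cross
  exact Finset.sum_union h

theorem cross_union_right (A : Finset X) {B B' : Finset X} (h : Disjoint B B') :
    cross D A (B ∪ B') = cross D A B + cross D A B' := by
  unfold cross
  rw [← Finset.sum_add_distrib]
  exact Finset.sum_congr rfl fun a _ => Finset.sum_union h

theorem cross_comm (hD : ∀ a b, D a b = D b a) (A B : Finset X) :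
    cross D A B = cross D B A := by
  unfold cross
  rw [Finset.sum_comm]
  exact Finset.sum_congr rfl fun b _ => Finset.sum_congr rfl fun a _ => hD a b

theorem cross_singleton (a b : X) : cross D {a} {b} = D a b := by simp [cross]

/-- The sum defining `pairs` is the sum over the off-diagonal. -/
theorem sum_erase_eq_sum_offDiag (A : Finset X) :
    ∑ a ∈ A, ∑ b ∈ A.erase a, D a b = ∑ p ∈ A.offDiag, D p.1 p.2 := by
  symm
  refine Finset.sum_finset_product' A.offDiag A (fun a => A.erase a) ?_
  intro p
  simp only [Finset.mem_offDiag, Finset.mem_erase]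
  constructor
  · rintro ⟨h1, h2, h3⟩
    exact ⟨h1, fun h => h3 h.symm, h2⟩
  · rintro ⟨h1, h3, h2⟩
    exact ⟨h1, h2, fun h => h3 h.symm⟩

theorem pairs_eq_offDiag (A : Finset X) :
    pairs D A = (∑ p ∈ A.offDiag, D p.1 p.2) / 2 := by
  unfold pairs
  rw [sum_erase_eq_sum_offDiag]

@[simp] theorem pairs_empty : pairs D (∅ : Finset X) = 0 := by simp [pairs]

@[simp] theorem pairs_singleton (a : X) : pairs D {a} = 0 := by simp [pairs]

theorem pairs_union (hD : ∀ a b, D a b = D b a) {A B : Finset X} (h : Disjoint A B) :
    pairs D (A ∪ B) = pairs D A + pairs D B + cross D A B := by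
  have hA : ∀ a ∈ A, ∑ b ∈ (A ∪ B).erase a, D a b
      = ∑ b ∈ A.erase a, D a b + ∑ b ∈ B, D a b := by
    intro a ha
    have haB : a ∉ B := Finset.disjoint_left.mp h ha
    rw [Finset.erase_union_distrib, Finset.erase_eq_of_notMem haB]
    exact Finset.sum_union (Finset.disjoint_of_subset_left (Finset.erase_subset a A) h)
  have hB : ∀ a ∈ B, ∑ b ∈ (A ∪ B).erase a, D a b
      = ∑ b ∈ A, D a b + ∑ b ∈ B.erase a, D a b := by
    intro a ha
    have haA : a ∉ A := Finset.disjoint_right.mp h ha
    rw [Finset.erase_union_distrib, Finset.erase_eq_of_notMem haA]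
    exact Finset.sum_union (Finset.disjoint_of_subset_right (Finset.erase_subset a B) h)
  have h1 : ∑ a ∈ A ∪ B, ∑ b ∈ (A ∪ B).erase a, D a b
      = (∑ a ∈ A, ∑ b ∈ A.erase a, D a b) + cross D A B
        + (cross D B A + ∑ a ∈ B, ∑ b ∈ B.erase a, D a b) := by
    rw [Finset.sum_union h, Finset.sum_congr rfl hA, Finset.sum_congr rfl hB,
      Finset.sum_add_distrib, Finset.sum_add_distrib]
    rfl
  unfold pairs
  rw [h1, cross_comm D hD B A]
  ring

theorem P_comm (hD : ∀ a b, D a b = D b a) (A B : Finset X) : P H D A B = P H D B A := by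
  unfold P
  rw [cross_comm D hD A B]
  ring

@[simp] theorem P_empty_left (B : Finset X) : P H D ∅ B = 0 := by simp [P]

@[simp] theorem P_empty_right (A : Finset X) : P H D A ∅ = 0 := by simp [P]

theorem P_singleton (a b : X) : P H D {a} {b} = H a + H b - D a b := by
  simp [P, cross_singleton]

/-- **Exact additivity of `P` in the first variable.** -/
theorem P_union_left {A A' : Finset X} (h : Disjoint A A') (B : Finset X) :
    P H D (A ∪ A') B = P H D A B + P H D A' B := by
  unfold P
  rw [HS_union H h, cross_union_left D h, Finset.card_union_of_disjoint h]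
  push_cast
  ring

/-- **Exact additivity of `P` in the second variable.** -/
theorem P_union_right (A : Finset X) {B B' : Finset X} (h : Disjoint B B') :
    P H D A (B ∪ B') = P H D A B + P H D A B' := by
  unfold P
  rw [HS_union H h, cross_union_right D A h, Finset.card_union_of_disjoint h]
  push_cast
  ring

/-- `P` as a double sum of the one-pair terms `H a + H b - D a b`. -/
theorem P_eq_sum (A B : Finset X) :
    P H D A B = ∑ a ∈ A, ∑ b ∈ B, (H a + H b - D a b) := by
  have h : ∀ a ∈ A, ∑ b ∈ B, (H a + H b - D a b)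
      = (B.card : ℝ) * H a + HS H B - ∑ b ∈ B, D a b := by
    intro a _
    rw [Finset.sum_sub_distrib, Finset.sum_add_distrib, Finset.sum_const, nsmul_eq_mul]
    rfl
  rw [Finset.sum_congr rfl h, Finset.sum_sub_distrib, Finset.sum_add_distrib, ← Finset.mul_sum,
    Finset.sum_const, nsmul_eq_mul]
  rfl

/-- `P` as a sum over the points of the second divisor. -/
theorem P_eq_sum_right (A B : Finset X) :
    P H D A B = ∑ b ∈ B, (HS H A + (A.card : ℝ) * H b - ∑ a ∈ A, D a b) := by
  unfold P cross
  rw [Finset.sum_sub_distrib, Finset.sum_add_distrib, Finset.sum_const, nsmul_eq_mul,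
    ← Finset.mul_sum, Finset.sum_comm]
  rfl

/-- The shape of (F0): if every point `b` of `B` pairs boundedly with `A`, then
`|P (A, B)| ≤ #B * c`. -/
theorem abs_P_le_of_pointwise {A B : Finset X} {c : ℝ}
    (h : ∀ b ∈ B, |HS H A + (A.card : ℝ) * H b - ∑ a ∈ A, D a b| ≤ c) :
    |P H D A B| ≤ (B.card : ℝ) * c := by
  rw [P_eq_sum_right]
  calc |∑ b ∈ B, (HS H A + (A.card : ℝ) * H b - ∑ a ∈ A, D a b)|
      ≤ ∑ b ∈ B, |HS H A + (A.card : ℝ) * H b - ∑ a ∈ A, D a b| := Finset.abs_sum_le_sum_abs _ _
    _ ≤ ∑ _b ∈ B, c := Finset.sum_le_sum h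
    _ = (B.card : ℝ) * c := by rw [Finset.sum_const, nsmul_eq_mul]

theorem theta_empty (g : ℝ) : theta H D g (∅ : Finset X) = 0 := by simp [theta]

theorem theta_singleton (g : ℝ) (a : X) : theta H D g {a} = g * H a := by
  simp [theta]

/-- **The theta identity**: `theta (A + B) = theta A + theta B + P (A, B)` for disjoint `A`,
`B`. -/
theorem theta_union (hD : ∀ a b, D a b = D b a) (g : ℝ) {A B : Finset X} (h : Disjoint A B) :
    theta H D g (A ∪ B) = theta H D g A + theta H D g B + P H D A B := by
  unfold theta P
  rw [HS_union H h, pairs_union D hD h, Finset.card_union_of_disjoint h]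
  push_cast
  ring

/-- Consequence used by block F: for a disjoint decomposition `Z = A ∪ A'`,
`-P (A, A') = theta A + theta A' - theta Z`. -/
theorem neg_P_eq_theta (hD : ∀ a b, D a b = D b a) (g : ℝ) {A B : Finset X}
    (h : Disjoint A B) :
    -P H D A B = theta H D g A + theta H D g B - theta H D g (A ∪ B) := by
  rw [theta_union H D hD g h]
  ring

end Finsets



end Fermat.Agent.S17.H.Formal
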