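import Fermat.Agent.S17.H.E.ClassPairingAt
import Fermat.Agent.S17.H.Formal.PairingAlg

/-!
# Program MW (S17), strand H: the seam between the class pairing (block E) and `P` (block F)

`ClassPairing.pair b D E` is the bilinear extension of a kernel `b : X → X → ℝ` to divisors
`X →₀ ℤ`; `Formal.P H D A B` is the pairing of two finite sets of points.  For a kernel `b` with
a distinguished point `oo`, `b oo oo = 0`, and `H a := b a oo`:

`pair b (divF A - #A • oo) (#B • oo - divF B) = P H b A B`      (`pair_sub_single_eq_P`),

where `divF A = ∑ a ∈ A, single a 1` is the divisor of the finite set `A`.  This is the exact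
identity behind step (F4): `q(x) = -pair b (A - n oo) (m oo - A^c) + O(1) = -P (A, A^c) + O(1)`.
-/

set_option autoImplicit false
set_option linter.unusedSectionVars false

namespace Fermat.Agent.S17.H.Formal

open Fermat.Agent.S17.H.ClassPairing

variable {X : Type*} [DecidableEq X]

/-- The divisor of a finite set of points, each with multiplicity one. -/
noncomputable def divF (A : Finset X) : X →₀ ℤ := ∑ a ∈ A, Finsupp.single a 1

@[simp] theorem divF_empty : divF (∅ : Finset X) = 0 := by simp [divF]

theorem divF_apply (A : Finset X) (x : X) : divF A x = if x ∈ A then 1 else 0 := by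
  unfold divF
  rw [Finsupp.finsetSum_apply]
  simp only [Finsupp.single_apply]
  exact Finset.sum_ite_eq' A x fun _ => (1 : ℤ)

theorem divF_apply_of_mem {A : Finset X} {x : X} (hx : x ∈ A) : divF A x = 1 := by
  rw [divF_apply, if_pos hx]

theorem divF_apply_of_notMem {A : Finset X} {x : X} (hx : x ∉ A) : divF A x = 0 := by
  rw [divF_apply, if_neg hx]

theorem divF_union {A B : Finset X} (h : Disjoint A B) : divF (A ∪ B) = divF A + divF B := by
  unfold divF
  exact Finset.sum_union h

theorem support_divF (A : Finset X) : (divF A).support = A := by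
  ext x
  rw [Finsupp.mem_support_iff, divF_apply]
  by_cases hx : x ∈ A
  · simp [hx]
  · simp [hx]

theorem divF_nonneg (A : Finset X) : 0 ≤ divF A := by
  intro x
  rw [divF_apply]
  by_cases hx : x ∈ A
  · simp [hx]
  · simp [hx]

/-- The sum of the coefficients of `divF A` is the number of points. -/
theorem sum_divF (A : Finset X) : ((divF A).sum fun _ n => n) = (A.card : ℤ) := by
  unfold Finsupp.sum
  rw [support_divF]
  rw [Finset.sum_congr rfl fun x hx => divF_apply_of_mem hx]
  simp

theorem norm1_divF (A : Finset X) : norm1 (divF A) = A.card := by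
  rw [norm1_eq_sum (D := divF A) (s := A) (by rw [support_divF])]
  rw [Finset.sum_congr rfl fun x hx => by rw [divF_apply_of_mem hx]]
  simp

theorem norm1_single_eq (x : X) (n : ℤ) : norm1 (Finsupp.single x n) = n.natAbs := by
  unfold norm1
  rw [Finsupp.sum_single_index]
  simp

theorem norm1_divF_sub_single_le (A : Finset X) (oo : X) (n : ℕ) :
    norm1 (divF A - Finsupp.single oo (n : ℤ)) ≤ A.card + n := by
  refine (norm1_sub_le _ _).trans ?_
  rw [norm1_divF, norm1_single_eq]
  simp

theorem norm1_single_sub_divF_le (oo : X) (n : ℕ) (B : Finset X) :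
    norm1 (Finsupp.single oo (n : ℤ) - divF B) ≤ n + B.card := by
  refine (norm1_sub_le _ _).trans ?_
  rw [norm1_divF, norm1_single_eq]
  simp

theorem support_divF_sub_single_subset (A : Finset X) (oo : X) (n : ℤ) :
    (divF A - Finsupp.single oo n).support ⊆ A ∪ {oo} := by
  refine Finsupp.support_sub.trans ?_
  rw [support_divF]
  exact Finset.union_subset_union (le_refl _) Finsupp.support_single_subset

theorem support_single_sub_divF_subset (oo : X) (n : ℤ) (B : Finset X) :
    (Finsupp.single oo n - divF B).support ⊆ {oo} ∪ B := by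
  refine Finsupp.support_sub.trans ?_
  rw [support_divF]
  exact Finset.union_subset_union Finsupp.support_single_subset (le_refl _)

/-! ### The pairing of the basic divisors -/

theorem pair_single_single (b : X → X → ℝ) (x y : X) (m n : ℤ) :
    pair b (Finsupp.single x m) (Finsupp.single y n) = (m : ℝ) * (n : ℝ) * b x y := by
  unfold pair
  rw [Finsupp.sum_single_index, Finsupp.sum_single_index]
  · simp
  · simp

theorem pair_sum_left {ι : Type*} (b : X → X → ℝ) (s : Finset ι) (f : ι → X →₀ ℤ)
    (E : X →₀ ℤ) : pair b (∑ i ∈ s, f i) E = ∑ i ∈ s, pair b (f i) E := by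
  classical
  induction s using Finset.induction_on with
  | empty => simp [pair_zero_left]
  | insert i s hi ih => rw [Finset.sum_insert hi, pair_add_left, ih, Finset.sum_insert hi]

theorem pair_sum_right {ι : Type*} (b : X → X → ℝ) (D : X →₀ ℤ) (s : Finset ι)
    (f : ι → X →₀ ℤ) : pair b D (∑ i ∈ s, f i) = ∑ i ∈ s, pair b D (f i) := by
  classical
  induction s using Finset.induction_on with
  | empty => simp [pair_zero_right]
  | insert i s hi ih => rw [Finset.sum_insert hi, pair_add_right, ih, Finset.sum_insert hi]

theorem pair_divF_single (b : X → X → ℝ) (A : Finset X) (y : X) (n : ℤ) :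
    pair b (divF A) (Finsupp.single y n) = (n : ℝ) * ∑ a ∈ A, b a y := by
  unfold divF
  rw [pair_sum_left, Finset.mul_sum]
  refine Finset.sum_congr rfl fun a _ => ?_
  rw [pair_single_single]
  push_cast
  ring

theorem pair_single_divF (b : X → X → ℝ) (x : X) (m : ℤ) (B : Finset X) :
    pair b (Finsupp.single x m) (divF B) = (m : ℝ) * ∑ c ∈ B, b x c := by
  unfold divF
  rw [pair_sum_right, Finset.mul_sum]
  refine Finset.sum_congr rfl fun c _ => ?_
  rw [pair_single_single]
  push_cast
  ring

theorem pair_divF_divF (b : X → X → ℝ) (A B : Finset X) :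
    pair b (divF A) (divF B) = cross b A B := by
  have h : pair b (divF A) (divF B) = ∑ a ∈ A, pair b (Finsupp.single a 1) (divF B) :=
    pair_sum_left b A (fun a => Finsupp.single a 1) (divF B)
  rw [h]
  unfold cross
  refine Finset.sum_congr rfl fun a _ => ?_
  rw [pair_single_divF]
  push_cast
  ring

/-- **The seam (E') → (F4)**: for a kernel `b` with `b oo oo = 0`, the class pairing of
`A - #A • oo` with `#B • oo - B` is `P (A, B)` for the height `H a = b a oo`. -/
theorem pair_sub_single_eq_P (b : X → X → ℝ) (hb : ∀ x y, b x y = b y x) (oo : X)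
    (hoo : b oo oo = 0) (A B : Finset X) :
    pair b (divF A - Finsupp.single oo (A.card : ℤ)) (Finsupp.single oo (B.card : ℤ) - divF B)
      = P (fun a => b a oo) b A B := by
  rw [pair_sub_left, pair_sub_right, pair_sub_right, pair_divF_single, pair_divF_divF,
    pair_single_single, pair_single_divF, hoo]
  unfold P HS
  have h : ∑ c ∈ B, b oo c = ∑ c ∈ B, b c oo := Finset.sum_congr rfl fun c _ => hb oo c
  rw [h]
  push_cast
  ring

/-- The same seam with the two divisors in the order used for `q (x) = -pair b D D'`:
`-pair b (A - #A • oo) (#B • oo - B) = theta A + theta B - theta (A ∪ B)`. -/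
theorem neg_pair_sub_single_eq_theta (b : X → X → ℝ) (hb : ∀ x y, b x y = b y x) (oo : X)
    (hoo : b oo oo = 0) (g : ℝ) {A B : Finset X} (h : Disjoint A B) :
    -pair b (divF A - Finsupp.single oo (A.card : ℤ)) (Finsupp.single oo (B.card : ℤ) - divF B)
      = theta (fun a => b a oo) b g A + theta (fun a => b a oo) b g B
        - theta (fun a => b a oo) b g (A ∪ B) := by
  rw [pair_sub_single_eq_P b hb oo hoo, neg_P_eq_theta (fun a => b a oo) b hb g h]

/-- The two divisors of the seam meet at most in the base point (`ClassPairing.MeetAt`), so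
`ClassPairing.exists_quasi_quadratic_at` applies to them. -/
theorem meetAt_divF_sub_single {A B : Finset X} (h : Disjoint A B) (oo : X) (n m : ℤ) :
    MeetAt oo (divF A - Finsupp.single oo n) (Finsupp.single oo m - divF B) := by
  intro x hx hx'
  by_contra hne
  have h1 : (divF A - Finsupp.single oo n) x = divF A x := by
    rw [Finsupp.sub_apply, Finsupp.single_apply, if_neg (Ne.symm hne), sub_zero]
  have h2 : (Finsupp.single oo m - divF B) x = -divF B x := by
    rw [Finsupp.sub_apply, Finsupp.single_apply, if_neg (Ne.symm hne), zero_sub]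
  rw [h1] at hx
  rw [h2] at hx'
  have hxA : x ∈ A := by
    by_contra hA
    exact hx (divF_apply_of_notMem hA)
  have hxB : x ∈ B := by
    by_contra hB
    exact hx' (by rw [divF_apply_of_notMem hB, neg_zero])
  exact Finset.disjoint_left.mp h hxA hxB

end Fermat.Agent.S17.H.Formal
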